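/-
S15 / BRIDGE / BR-AN (helper45): Liouville's theorem for elliptic functions, in the form
"a meromorphic `Λ`-periodic function without poles is constant (where it is continuous)".
-/
import Mathlib.Analysis.SpecialFunctions.Elliptic.Weierstrass
import Mathlib.Analysis.Meromorphic.NormalForm

set_option autoImplicit false

noncomputable section

open Filter Topology

namespace Fermat.Agent.S15.H45

/-- If two functions agree on a punctured neighbourhood of `x` and are both continuous at `x`,
they agree at `x`. -/
theorem eq_of_eventuallyEq_nhdsNE {f g : ℂ → ℂ} {x : ℂ} (h : f =ᶠ[𝓝[≠] x] g)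
    (hf : ContinuousAt f x) (hg : ContinuousAt g x) : f x = g x := by
  have h1 : Tendsto f (𝓝[≠] x) (𝓝 (f x)) := hf.tendsto.mono_left nhdsWithin_le_nhds
  have h2 : Tendsto g (𝓝[≠] x) (𝓝 (g x)) := hg.tendsto.mono_left nhdsWithin_le_nhds
  exact tendsto_nhds_unique (h1.congr' h) h2

/-- **Liouville for elliptic functions.**  A meromorphic function on `ℂ` which is periodic with
respect to a lattice and has no poles is constant (at all points of continuity). -/
theorem exists_const_of_periodic (L : PeriodPair) (F : ℂ → ℂ) (hF : Meromorphic F)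
    (hper : ∀ z, ∀ l ∈ L.lattice, F (z + l) = F z)
    (hord : ∀ x, 0 ≤ meromorphicOrderAt F x) :
    ∃ c : ℂ, ∀ x, ContinuousAt F x → F x = c := by
  have hFU : MeromorphicOn F Set.univ := fun x _ => hF x
  set G : ℂ → ℂ := toMeromorphicNFOn F Set.univ with hG
  have hGNF : MeromorphicNFOn G Set.univ := meromorphicNFOn_toMeromorphicNFOn F Set.univ
  have hGan : ∀ x, AnalyticAt ℂ G x := by
    intro x
    rw [← (hGNF (Set.mem_univ x)).meromorphicOrderAt_nonneg_iff_analyticAt]
    rw [hG, meromorphicOrderAt_toMeromorphicNFOn hFU (Set.mem_univ x)]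
    exact hord x
  have hGF : ∀ x, G =ᶠ[𝓝[≠] x] F := fun x =>
    hFU.toMeromorphicNFOn_eq_self_on_nhdsNE (Set.mem_univ x)
  have hGd : Differentiable ℂ G := fun x => (hGan x).differentiableAt
  have hGper : ∀ z w, w ∈ L.lattice → G (z + w) = G z := by
    intro z w hw
    have h1 : (fun u => G (u + w)) =ᶠ[𝓝[≠] z] G := by
      have h2 : (fun u => G (u + w)) =ᶠ[𝓝[≠] z] fun u => F (u + w) := by
        have h3 : Tendsto (fun u : ℂ => u + w) (𝓝[≠] z) (𝓝[≠] (z + w)) := by
          refine tendsto_nhdsWithin_of_tendsto_nhds_of_eventually_within _ ?_ ?_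
          · exact (continuous_id.add continuous_const).continuousAt.tendsto.mono_left
              nhdsWithin_le_nhds
          · filter_upwards [self_mem_nhdsWithin] with u hu
            simpa using hu
        exact h3.eventually (hGF (z + w))
      refine h2.trans ?_
      refine EventuallyEq.trans ?_ (hGF z).symm
      exact Eventually.of_forall fun u => hper u w hw
    have hc1 : ContinuousAt (fun u => G (u + w)) z :=
      (hGd.continuous.comp (continuous_id.add continuous_const)).continuousAt
    exact eq_of_eventuallyEq_nhdsNE h1 hc1 hGd.continuous.continuousAt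
  have hconst : ∀ x, G x = G 0 := fun x =>
    hGd.apply_eq_apply_of_bounded (IsZLattice.isCompact_range_of_periodic L.lattice _
      hGd.continuous fun z w hw => hGper z w hw).isBounded x 0
  refine ⟨G 0, fun x hx => ?_⟩
  rw [← hconst x]
  exact (eq_of_eventuallyEq_nhdsNE (hGF x) hGd.continuous.continuousAt hx).symm

end Fermat.Agent.S15.H45
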