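/-
S15 / BRIDGE / BR-AN (helper45): the addition theorem for the Weierstrass `℘`-function in
collinearity form:  for `z, w, z + w ∉ Λ` the points
`(℘ z, ℘' z)`, `(℘ w, ℘' w)`, `(℘ (z + w), - ℘' (z + w))` are collinear.
-/
import Fermat.Agent.S15.Bridge.H45_Liouville

set_option autoImplicit false

noncomputable section

open Filter Topology
open scoped PeriodPair

namespace Fermat.Agent.S15.H45

variable (L : PeriodPair)

/-- The collinearity determinant of the three points
`(℘ z, ℘' z)`, `(℘ w, ℘' w)`, `(℘ (z + w), - ℘' (z + w))`. -/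
def colDet (w z : ℂ) : ℂ :=
  ℘[L] z * (℘'[L] (z + w) + ℘'[L] w) + ℘'[L] z * (℘[L] (z + w) - ℘[L] w)
    - ℘[L] w * ℘'[L] (z + w) - ℘'[L] w * ℘[L] (z + w)

theorem meromorphic_wP_add (w : ℂ) : Meromorphic fun z => ℘[L] (z + w) :=
  fun x => (L.meromorphic_weierstrassP (x + w)).comp_analyticAt (g := fun z => z + w)
    (by fun_prop)

theorem meromorphic_wP'_add (w : ℂ) : Meromorphic fun z => ℘'[L] (z + w) :=
  fun x => (L.meromorphic_derivWeierstrassP (x + w)).comp_analyticAt (g := fun z => z + w)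
    (by fun_prop)

theorem meromorphic_colDet (w : ℂ) : Meromorphic (colDet L w) := by
  have h1 := meromorphic_wP_add L w
  have h2 := meromorphic_wP'_add L w
  have h3 := L.meromorphic_weierstrassP
  have h4 := L.meromorphic_derivWeierstrassP
  unfold colDet
  intro x
  have := h1 x
  have := h2 x
  have := h3 x
  have := h4 x
  fun_prop

theorem colDet_add_coe (w z : ℂ) {l : ℂ} (hl : l ∈ L.lattice) :
    colDet L w (z + l) = colDet L w z := by
  have e : z + l + w = z + w + l := by ring
  have h1 := L.weierstrassP_add_coe z ⟨l, hl⟩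
  have h2 := L.derivWeierstrassP_add_coe z ⟨l, hl⟩
  have h3 := L.weierstrassP_add_coe (z + w) ⟨l, hl⟩
  have h4 := L.derivWeierstrassP_add_coe (z + w) ⟨l, hl⟩
  simp only at h1 h2 h3 h4
  simp only [colDet, e, h1, h2, h3, h4]

theorem colDet_antisymm (w z : ℂ) : colDet L w (-w - z) = - colDet L w z := by
  have e1 : -w - z + w = -z := by ring
  have e2 : -w - z = -(z + w) := by ring
  simp only [colDet, e1]
  simp only [e2, L.weierstrassP_neg, L.derivWeierstrassP_neg]
  ring

/-! ### Analyticity away from the poles -/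

theorem analyticAt_wP_add {w x : ℂ} (h : x + w ∉ L.lattice) :
    AnalyticAt ℂ (fun z => ℘[L] (z + w)) x := by
  have h1 := L.analyticOnNhd_weierstrassP (x + w) h
  fun_prop

theorem analyticAt_wP'_add {w x : ℂ} (h : x + w ∉ L.lattice) :
    AnalyticAt ℂ (fun z => ℘'[L] (z + w)) x := by
  have h1 := L.analyticOnNhd_derivWeierstrassP (x + w) h
  fun_prop

theorem analyticAt_colDet {w x : ℂ} (hx : x ∉ L.lattice) (hxw : x + w ∉ L.lattice) :
    AnalyticAt ℂ (colDet L w) x := by
  have h1 := L.analyticOnNhd_weierstrassP (x + w) hxw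
  have h2 := L.analyticOnNhd_derivWeierstrassP (x + w) hxw
  have h3 := L.analyticOnNhd_weierstrassP x hx
  have h4 := L.analyticOnNhd_derivWeierstrassP x hx
  unfold colDet
  fun_prop

/-! ### The order at `0` -/

/-- The auxiliary function `D(z) = z (℘'(z+w) + ℘'(w)) - 2 (℘(z+w) - ℘(w))`; it vanishes to
order `3` at `0`. -/
def auxD (w z : ℂ) : ℂ := z * (℘'[L] (z + w) + ℘'[L] w) - 2 * (℘[L] (z + w) - ℘[L] w)

theorem analyticAt_auxD {w x : ℂ} (hxw : x + w ∉ L.lattice) : AnalyticAt ℂ (auxD L w) x := by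
  have h1 := L.analyticOnNhd_weierstrassP (x + w) hxw
  have h2 := L.analyticOnNhd_derivWeierstrassP (x + w) hxw
  unfold auxD
  fun_prop

theorem hasDerivAt_wP {x : ℂ} (hx : x ∉ L.lattice) : HasDerivAt ℘[L] (℘'[L] x) x := by
  have := (L.analyticOnNhd_weierstrassP x hx).differentiableAt.hasDerivAt
  rwa [L.deriv_weierstrassP] at this

theorem hasDerivAt_wP' {x : ℂ} (hx : x ∉ L.lattice) :
    HasDerivAt ℘'[L] (deriv ℘'[L] x) x :=
  (L.analyticOnNhd_derivWeierstrassP x hx).differentiableAt.hasDerivAt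

theorem hasDerivAt_wP_add {w x : ℂ} (h : x + w ∉ L.lattice) :
    HasDerivAt (fun z => ℘[L] (z + w)) (℘'[L] (x + w)) x := by
  have := (hasDerivAt_wP L h).comp_add_const x w
  simpa using this

theorem hasDerivAt_wP'_add {w x : ℂ} (h : x + w ∉ L.lattice) :
    HasDerivAt (fun z => ℘'[L] (z + w)) (deriv ℘'[L] (x + w)) x := by
  have := (hasDerivAt_wP' L h).comp_add_const x w
  simpa using this

theorem hasDerivAt_auxD {w x : ℂ} (hxw : x + w ∉ L.lattice) :
    HasDerivAt (auxD L w)
      (℘'[L] w - ℘'[L] (x + w) + x * deriv ℘'[L] (x + w)) x := by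
  have h1 := hasDerivAt_wP_add L hxw
  have h2 := hasDerivAt_wP'_add L hxw
  have h3 : HasDerivAt (fun z : ℂ => z) 1 x := hasDerivAt_id x
  have := (h3.mul (h2.add_const (℘'[L] w))).sub ((h1.sub_const (℘[L] w)).const_mul 2)
  refine this.congr_deriv ?_
  ring

theorem nhds_add_notMem {w x : ℂ} (hxw : x + w ∉ L.lattice) :
    ∀ᶠ z in 𝓝 x, z + w ∉ L.lattice := by
  have h : Tendsto (fun z : ℂ => z + w) (𝓝 x) (𝓝 (x + w)) :=
    (continuous_id.add continuous_const).continuousAt
  exact h.eventually (L.isClosed_lattice.isOpen_compl.mem_nhds hxw)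

theorem deriv_auxD_eventuallyEq {w x : ℂ} (hxw : x + w ∉ L.lattice) :
    deriv (auxD L w) =ᶠ[𝓝 x]
      fun z => ℘'[L] w - ℘'[L] (z + w) + z * deriv ℘'[L] (z + w) := by
  filter_upwards [nhds_add_notMem L hxw] with z hz
  exact (hasDerivAt_auxD L hz).deriv

theorem analyticAt_deriv_wP' {x : ℂ} (hx : x ∉ L.lattice) : AnalyticAt ℂ (deriv ℘'[L]) x :=
  (L.analyticOnNhd_derivWeierstrassP x hx).deriv

theorem three_le_order_auxD {w : ℂ} (hw : w ∉ L.lattice) :
    (3 : ℕ) ≤ analyticOrderAt (auxD L w) 0 := by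
  have hw0 : (0 : ℂ) + w ∉ L.lattice := by simpa using hw
  rw [natCast_le_analyticOrderAt_iff_iteratedDeriv_eq_zero (analyticAt_auxD L hw0)]
  intro i hi
  have h0 : auxD L w 0 = 0 := by simp [auxD]
  have h1 : deriv (auxD L w) 0 = 0 := by
    rw [(hasDerivAt_auxD L hw0).deriv]
    simp
  have h2 : deriv (deriv (auxD L w)) 0 = 0 := by
    rw [(deriv_auxD_eventuallyEq L hw0).deriv_eq]
    have hd : HasDerivAt (fun z => deriv ℘'[L] (z + w)) (deriv (deriv ℘'[L]) (0 + w)) 0 := by
      have := ((analyticAt_deriv_wP' L hw0).differentiableAt.hasDerivAt).comp_add_const 0 w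
      simpa using this
    have h3 : HasDerivAt (fun z : ℂ => z) 1 0 := hasDerivAt_id 0
    have h4 : HasDerivAt (fun z => ℘'[L] w - ℘'[L] (z + w) + z * deriv ℘'[L] (z + w))
        (-deriv ℘'[L] (0 + w) + (1 * deriv ℘'[L] (0 + w) + 0 * deriv (deriv ℘'[L]) (0 + w))) 0 :=
      ((hasDerivAt_wP'_add L hw0).const_sub (℘'[L] w)).add (h3.mul hd)
    rw [h4.deriv]
    simp
  interval_cases i
  · simpa using h0
  · simpa using h1
  · rw [show (2 : ℕ) = 1 + 1 from rfl, iteratedDeriv_succ, iteratedDeriv_one]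
    exact h2

theorem wP_eq_except_zero (z : ℂ) : ℘[L] z = ℘[L - (0 : ℂ)] z + 1 / z ^ 2 := by
  have := L.weierstrassPExcept_add (0 : L.lattice) z
  simp only [ZeroMemClass.coe_zero, sub_zero] at this
  rw [← this]
  simp

theorem wP'_eq_except_zero (z : ℂ) : ℘'[L] z = ℘'[L - (0 : ℂ)] z - 2 / z ^ 3 := by
  have := L.derivWeierstrassPExcept_sub (0 : L.lattice) z
  simp only [ZeroMemClass.coe_zero, sub_zero] at this
  rw [← this]

theorem order_colDet_zero {w : ℂ} (hw : w ∉ L.lattice) :
    0 ≤ meromorphicOrderAt (colDet L w) 0 := by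
  have hw0 : (0 : ℂ) + w ∉ L.lattice := by simpa using hw
  obtain ⟨h, hh, hD⟩ := (natCast_le_analyticOrderAt (analyticAt_auxD L hw0)).mp
    (three_le_order_auxD L hw)
  rw [(meromorphic_colDet L w 0).meromorphicOrderAt_nonneg_iff]
  refine ⟨fun z => ℘[L - (0 : ℂ)] z * (℘'[L] (z + w) + ℘'[L] w)
      + ℘'[L - (0 : ℂ)] z * (℘[L] (z + w) - ℘[L] w)
      - ℘[L] w * ℘'[L] (z + w) - ℘'[L] w * ℘[L] (z + w) + h z, ?_, ?_⟩
  · have h1 := L.analyticOnNhd_weierstrassP (0 + w) hw0
    have h2 := L.analyticOnNhd_derivWeierstrassP (0 + w) hw0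
    have h3 := L.analyticAt_weierstrassPExcept 0
    have h4 := L.analyticAt_derivWeierstrassPExcept 0
    fun_prop
  · filter_upwards [mem_nhdsWithin_of_mem_nhds hD, self_mem_nhdsWithin] with z hz hz0
    have hz0' : z ≠ 0 := hz0
    simp only [sub_zero, smul_eq_mul] at hz
    have hh' : h z = auxD L w z / z ^ 3 := by
      rw [hz]; field_simp
    rw [hh']
    simp only [colDet, auxD]
    rw [wP_eq_except_zero L z, wP'_eq_except_zero L z]
    field_simp
    ring

theorem order_colDet_lattice {w : ℂ} (hw : w ∉ L.lattice) {x : ℂ} (hx : x ∈ L.lattice) :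
    0 ≤ meromorphicOrderAt (colDet L w) x := by
  have e : colDet L w ∘ (· + x) = colDet L w := funext fun z => colDet_add_coe L w z hx
  have h := meromorphicOrderAt_comp_add_const_eq_meromorphicOrderAt (f := colDet L w) (c := x)
    (x := 0)
  rw [e, zero_add] at h
  rw [← h]
  exact order_colDet_zero L hw

theorem order_colDet_nonneg {w : ℂ} (hw : w ∉ L.lattice) (x : ℂ) :
    0 ≤ meromorphicOrderAt (colDet L w) x := by
  by_cases hx : x ∈ L.lattice
  · exact order_colDet_lattice L hw hx
  by_cases hxw : x + w ∈ L.lattice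
  · have hl : -w - x ∈ L.lattice := by
      have := L.lattice.neg_mem hxw
      convert this using 1
      ring
    have e : colDet L w = -(colDet L w ∘ fun z => -w - z) := by
      funext z
      simp [colDet_antisymm]
    have hg : AnalyticAt ℂ (fun z : ℂ => -w - z) x := by fun_prop
    have hg' : deriv (fun z : ℂ => -w - z) x ≠ 0 := by
      have : HasDerivAt (fun z : ℂ => -w - z) (-1) x := by
        simpa using (hasDerivAt_id x).const_sub (-w)
      rw [this.deriv]
      norm_num
    rw [e, ← meromorphicOrderAt_neg, meromorphicOrderAt_comp_of_deriv_ne_zero hg hg']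
    exact order_colDet_lattice L hw hl
  · exact (analyticAt_colDet L hx hxw).meromorphicOrderAt_nonneg

/-- There are points `z` with `z ∉ Λ` and `z + w ∉ Λ`. -/
theorem exists_generic (w : ℂ) : ∃ z : ℂ, z ∉ L.lattice ∧ z + w ∉ L.lattice := by
  have hc : (L.lattice : Set ℂ).Countable := by
    have : Countable L.lattice := by
      have := L.latticeEquivProd.toEquiv.countable_iff.mpr inferInstance
      exact this
    exact Set.to_countable _
  have hc2 : ((fun z => z - w) '' (L.lattice : Set ℂ)).Countable := hc.image _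
  have hne : ((L.lattice : Set ℂ) ∪ (fun z => z - w) '' (L.lattice : Set ℂ))ᶜ.Nonempty :=
    ((hc.union hc2).dense_compl ℝ).nonempty
  obtain ⟨z, hz⟩ := hne
  simp only [Set.mem_compl_iff, Set.mem_union, not_or, Set.mem_image, not_exists, not_and] at hz
  refine ⟨z, hz.1, fun h => hz.2 (z + w) h (by ring)⟩

/-- **Addition theorem for `℘`, collinearity form.** -/
theorem colDet_eq_zero {z w : ℂ} (hz : z ∉ L.lattice) (hw : w ∉ L.lattice)
    (hzw : z + w ∉ L.lattice) : colDet L w z = 0 := by
  obtain ⟨c, hc⟩ := exists_const_of_periodic L (colDet L w) (meromorphic_colDet L w)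
    (fun z l hl => colDet_add_coe L w z hl) (order_colDet_nonneg L hw)
  have hcont : ∀ x, x ∉ L.lattice → x + w ∉ L.lattice → colDet L w x = c := fun x h1 h2 =>
    hc x (analyticAt_colDet L h1 h2).continuousAt
  obtain ⟨u, hu, huw⟩ := exists_generic L w
  have h1 := hcont u hu huw
  have h2 : colDet L w (-w - u) = c := by
    refine hcont _ ?_ ?_
    · intro h
      apply huw
      have := L.lattice.neg_mem h
      convert this using 1
      ring
    · intro h
      apply hu
      have := L.lattice.neg_mem h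
      convert this using 1
      ring
  rw [colDet_antisymm, h1] at h2
  have hc0 : c = 0 := by
    have : (2 : ℂ) * c = 0 := by linear_combination -h2
    simpa using this
  rw [hcont z hz hzw, hc0]

end Fermat.Agent.S15.H45
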