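/-
S15 / BRIDGE / BR-AN (helper45): the addition theorem for the Weierstrass `℘`-function,
`x`-coordinate form (AN-ADD), deduced from the collinearity form.
-/
import Fermat.Agent.S15.Bridge.H45_Collinear

set_option autoImplicit false

noncomputable section

open Filter Topology
open scoped PeriodPair

namespace Fermat.Agent.S15.H45

variable (L : PeriodPair)

/-! ### Generalities on meromorphic functions on `ℂ` -/

/-- A meromorphic function on `ℂ` which does not vanish identically near one point does not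
vanish identically near any point. -/
theorem order_ne_top_of_exists {f : ℂ → ℂ} (hf : Meromorphic f) {x₀ : ℂ}
    (h : meromorphicOrderAt f x₀ ≠ ⊤) (x : ℂ) : meromorphicOrderAt f x ≠ ⊤ :=
  MeromorphicOn.meromorphicOrderAt_ne_top_of_isPreconnected (U := Set.univ)
    (fun y _ => hf y) isPreconnected_univ (Set.mem_univ x₀) (Set.mem_univ x) h

/-- If `f g = 0` generically and `f` is not identically zero, then `g = 0` wherever `g` is
continuous. -/
theorem eq_zero_of_mul_eq_zero {f g : ℂ → ℂ} (hf : Meromorphic f) (hg : Meromorphic g) {x₀ : ℂ}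
    (h : meromorphicOrderAt f x₀ ≠ ⊤)
    (hfg : ∀ x, ∀ᶠ z in 𝓝[≠] x, f z * g z = 0) {x : ℂ} (hx : ContinuousAt g x) : g x = 0 := by
  have h1 : meromorphicOrderAt (f * g) x = ⊤ := by
    rw [meromorphicOrderAt_eq_top_iff]
    exact hfg x
  rw [meromorphicOrderAt_mul (hf x) (hg x)] at h1
  have h2 : meromorphicOrderAt g x = ⊤ := by
    by_contra h3
    have hfx := order_ne_top_of_exists hf h x
    lift meromorphicOrderAt f x to ℤ using hfx with a
    lift meromorphicOrderAt g x to ℤ using h3 with b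
    exact WithTop.coe_ne_top (h1 ▸ (WithTop.coe_add a b))
  rw [meromorphicOrderAt_eq_top_iff] at h2
  exact eq_of_eventuallyEq_nhdsNE (f := g) (g := fun _ => 0) h2 hx continuousAt_const

/-! ### Generic points -/

theorem eventually_notMem (x : ℂ) : ∀ᶠ z in 𝓝[≠] x, z ∉ L.lattice := by
  filter_upwards [mem_nhdsWithin_of_mem_nhds (L.compl_lattice_sdiff_singleton_mem_nhds x),
    self_mem_nhdsWithin] with z hz hzx
  exact fun h => hz ⟨h, hzx⟩

theorem tendsto_add_nhdsNE (w x : ℂ) : Tendsto (fun u : ℂ => u + w) (𝓝[≠] x) (𝓝[≠] (x + w)) := by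
  refine tendsto_nhdsWithin_of_tendsto_nhds_of_eventually_within _ ?_ ?_
  · exact (continuous_id.add continuous_const).continuousAt.tendsto.mono_left nhdsWithin_le_nhds
  · filter_upwards [self_mem_nhdsWithin] with u hu
    simpa using hu

theorem eventually_add_notMem (w x : ℂ) : ∀ᶠ z in 𝓝[≠] x, z + w ∉ L.lattice :=
  (tendsto_add_nhdsNE w x).eventually (eventually_notMem L (x + w))

/-! ### Orders of the translates of `℘` -/

theorem order_wP_add (w x : ℂ) (h : x + w ∈ L.lattice) :
    meromorphicOrderAt (fun z => ℘[L] (z + w)) x = -2 := by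
  have := meromorphicOrderAt_comp_add_const_eq_meromorphicOrderAt (f := ℘[L]) (c := w) (x := x)
  rw [L.order_weierstrassP _ h] at this
  exact this

/-- `z ↦ ℘(z + w) - ℘(z)` is not identically zero, for `w ∉ Λ`. -/
theorem order_sub_ne_top {w : ℂ} (hw : w ∉ L.lattice) :
    meromorphicOrderAt (fun z => ℘[L] (z + w) - ℘[L] z) 0 ≠ ⊤ := by
  have hw0 : (0 : ℂ) + w ∉ L.lattice := by simpa using hw
  have h1 : (0 : WithTop ℤ) ≤ meromorphicOrderAt (fun z => ℘[L] (z + w)) 0 :=
    (analyticAt_wP_add L hw0).meromorphicOrderAt_nonneg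
  have h2 : meromorphicOrderAt (fun z => -℘[L] z) 0 = -2 := by
    rw [← meromorphicOrderAt_fun_neg]
    exact L.order_weierstrassP 0 (zero_mem _)
  have h3 : meromorphicOrderAt ((fun z => ℘[L] (z + w)) + fun z => -℘[L] z) 0 = -2 := by
    rw [meromorphicOrderAt_add_eq_right_of_lt (meromorphic_wP_add L w 0)]
    · exact h2
    · rw [h2]
      exact lt_of_lt_of_le (by decide) h1
  have e : (fun z => ℘[L] (z + w) - ℘[L] z) = (fun z => ℘[L] (z + w)) + fun z => -℘[L] z := by
    funext z
    simp [sub_eq_add_neg]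
  rw [e, h3]
  decide

/-- `z ↦ ℘(z + w) - c` is not identically zero. -/
theorem order_sub_const_ne_top (w c : ℂ) :
    meromorphicOrderAt (fun z => ℘[L] (z + w) - c) (-w) ≠ ⊤ := by
  have h2 : meromorphicOrderAt (fun z => ℘[L] (z + w)) (-w) = -2 :=
    order_wP_add L w (-w) (by simp)
  have h1 : (0 : WithTop ℤ) ≤ meromorphicOrderAt (fun _ : ℂ => -c) (-w) :=
    (analyticAt_const (𝕜 := ℂ) (v := -c) (x := -w)).meromorphicOrderAt_nonneg
  have h3 : meromorphicOrderAt ((fun z => ℘[L] (z + w)) + fun _ => -c) (-w) = -2 := by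
    rw [meromorphicOrderAt_add_eq_left_of_lt (MeromorphicAt.const _ _)]
    · exact h2
    · rw [h2]
      exact lt_of_lt_of_le (by decide) h1
  have e : (fun z => ℘[L] (z + w) - c) = (fun z => ℘[L] (z + w)) + fun _ => -c := by
    funext z
    simp [sub_eq_add_neg]
  rw [e, h3]
  decide

/-! ### The addition theorem -/

/-- The `x`-coordinate relation, as a function of `z`. -/
def addRel (w z : ℂ) : ℂ :=
  4 * (℘[L] (z + w) + ℘[L] z + ℘[L] w) * (℘[L] z - ℘[L] w) ^ 2 - (℘'[L] z - ℘'[L] w) ^ 2

theorem addRel_mul_eq_zero {z w : ℂ} (hz : z ∉ L.lattice) (hw : w ∉ L.lattice)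
    (hzw : z + w ∉ L.lattice) :
    (℘[L] (z + w) - ℘[L] z) * (℘[L] (z + w) - ℘[L] w) * addRel L w z = 0 := by
  have h0 := colDet_eq_zero L hz hw hzw
  have h1 := L.derivWeierstrassP_sq z hz
  have h2 := L.derivWeierstrassP_sq w hw
  have h3 := L.derivWeierstrassP_sq (z + w) hzw
  simp only [colDet] at h0
  simp only [addRel]
  generalize ℘[L] z = x1 at *
  generalize ℘[L] w = x2 at *
  generalize ℘[L] (z + w) = x3 at *
  generalize ℘'[L] z = y1 at *
  generalize ℘'[L] w = y2 at *
  generalize ℘'[L] (z + w) = y3 at *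
  linear_combination (y3 * (x1 - x2) + y2 * (x3 - x1) - y1 * (x3 - x2)) * h0
    - (x1 - x2) ^ 2 * h3 + ((x3 - x1) ^ 2 - (x3 - x1) * (x3 - x2)) * h2
    + ((x3 - x2) ^ 2 - (x3 - x1) * (x3 - x2)) * h1

theorem meromorphic_addRel (w : ℂ) : Meromorphic (addRel L w) := by
  intro x
  have h1 := meromorphic_wP_add L w x
  have h3 := L.meromorphic_weierstrassP x
  have h4 := L.meromorphic_derivWeierstrassP x
  unfold addRel
  fun_prop

theorem analyticAt_addRel {w x : ℂ} (hx : x ∉ L.lattice) (hxw : x + w ∉ L.lattice) :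
    AnalyticAt ℂ (addRel L w) x := by
  have h1 := L.analyticOnNhd_weierstrassP (x + w) hxw
  have h3 := L.analyticOnNhd_weierstrassP x hx
  have h4 := L.analyticOnNhd_derivWeierstrassP x hx
  unfold addRel
  fun_prop

/-- **Addition theorem for `℘`** (AN-ADD), in the form `addRel = 0`. -/
theorem addRel_eq_zero {z w : ℂ} (hz : z ∉ L.lattice) (hw : w ∉ L.lattice)
    (hzw : z + w ∉ L.lattice) : addRel L w z = 0 := by
  have hf1 : Meromorphic fun z => ℘[L] (z + w) - ℘[L] z := fun x =>
    (meromorphic_wP_add L w x).sub (L.meromorphic_weierstrassP x)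
  have hf2 : Meromorphic fun z => ℘[L] (z + w) - ℘[L] w := fun x =>
    (meromorphic_wP_add L w x).sub (MeromorphicAt.const _ _)
  have hg := meromorphic_addRel L w
  have hgen : ∀ x, ∀ᶠ u in 𝓝[≠] x, u ∉ L.lattice ∧ u + w ∉ L.lattice := fun x =>
    (eventually_notMem L x).and (eventually_add_notMem L w x)
  -- first step
  have step1 : ∀ u, u ∉ L.lattice → u + w ∉ L.lattice →
      (℘[L] (u + w) - ℘[L] w) * addRel L w u = 0 := by
    intro u hu huw
    refine eq_zero_of_mul_eq_zero (f := fun z => ℘[L] (z + w) - ℘[L] z)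
      (g := fun z => (℘[L] (z + w) - ℘[L] w) * addRel L w z) hf1 (fun x => (hf2 x).mul (hg x))
      (order_sub_ne_top L hw) ?_ ?_
    · intro x
      filter_upwards [hgen x] with v hv
      have := addRel_mul_eq_zero L hv.1 hw hv.2
      rw [← this]
      ring
    · have h1 := L.analyticOnNhd_weierstrassP (u + w) huw
      have h2 := analyticAt_addRel L hu huw
      have : AnalyticAt ℂ (fun z => (℘[L] (z + w) - ℘[L] w) * addRel L w z) u := by fun_prop
      exact this.continuousAt
  refine eq_zero_of_mul_eq_zero (f := fun z => ℘[L] (z + w) - ℘[L] w) (g := addRel L w) hf2 hg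
    (order_sub_const_ne_top L w (℘[L] w)) ?_ (analyticAt_addRel L hz hzw).continuousAt
  intro x
  filter_upwards [hgen x] with v hv
  exact step1 v hv.1 hv.2

/-- **Addition theorem for `℘`** (AN-ADD). -/
theorem wP_add {z w : ℂ} (hz : z ∉ L.lattice) (hw : w ∉ L.lattice)
    (hzw : z + w ∉ L.lattice) :
    (℘[L] (z + w) + ℘[L] z + ℘[L] w) * (℘[L] z - ℘[L] w) ^ 2 =
      (1 / 4) * (℘'[L] z - ℘'[L] w) ^ 2 := by
  have := addRel_eq_zero L hz hw hzw
  simp only [addRel] at this
  linear_combination (1 / 4) * this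

end Fermat.Agent.S15.H45
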