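/-
S15 / BRIDGE / BR-AN (helper45): `℘` is surjective (AN-SURJ) and `℘(a) = ℘(b) ⇒ a ≡ ± b`
(AN-INJ).
-/
import Fermat.Agent.S15.Bridge.H45_AddX

set_option autoImplicit false

noncomputable section

open Filter Topology
open scoped PeriodPair

namespace Fermat.Agent.S15.H45

variable (L : PeriodPair)

/-- If `f g = 0` generically and `f` is not identically zero, then `g` vanishes identically
near every point. -/
theorem order_eq_top_of_mul_eq_zero {f g : ℂ → ℂ} (hf : Meromorphic f) (hg : Meromorphic g)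
    {x₀ : ℂ} (h : meromorphicOrderAt f x₀ ≠ ⊤)
    (hfg : ∀ x, ∀ᶠ z in 𝓝[≠] x, f z * g z = 0) (x : ℂ) : meromorphicOrderAt g x = ⊤ := by
  have h1 : meromorphicOrderAt (f * g) x = ⊤ := by
    rw [meromorphicOrderAt_eq_top_iff]
    exact hfg x
  rw [meromorphicOrderAt_mul (hf x) (hg x)] at h1
  by_contra h3
  have hfx := order_ne_top_of_exists hf h x
  lift meromorphicOrderAt f x to ℤ using hfx with a
  lift meromorphicOrderAt g x to ℤ using h3 with b
  exact WithTop.coe_ne_top (h1 ▸ (WithTop.coe_add a b))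

/-! ### Surjectivity -/

theorem order_wP_sub_const (c : ℂ) {x : ℂ} (hx : x ∈ L.lattice) :
    meromorphicOrderAt (fun z => ℘[L] z - c) x = -2 := by
  have h2 : meromorphicOrderAt ℘[L] x = -2 := L.order_weierstrassP x hx
  have h1 : (0 : WithTop ℤ) ≤ meromorphicOrderAt (fun _ : ℂ => -c) x :=
    (analyticAt_const (𝕜 := ℂ) (v := -c) (x := x)).meromorphicOrderAt_nonneg
  have h3 : meromorphicOrderAt (℘[L] + fun _ => -c) x = -2 := by
    rw [meromorphicOrderAt_add_eq_left_of_lt (MeromorphicAt.const _ _)]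
    · exact h2
    · rw [h2]
      exact lt_of_lt_of_le (by decide) h1
  have e : (fun z => ℘[L] z - c) = ℘[L] + fun _ => -c := by
    funext z
    simp [sub_eq_add_neg]
  rw [e, h3]

/-- (AN-SURJ) `℘` takes every value. -/
theorem wP_surj (c : ℂ) : ∃ z : ℂ, z ∉ L.lattice ∧ ℘[L] z = c := by
  by_contra hcon
  simp only [not_exists, not_and] at hcon
  have hne : ∀ z, z ∉ L.lattice → ℘[L] z - c ≠ 0 := fun z hz => sub_ne_zero.mpr (hcon z hz)
  have hm : Meromorphic fun z => ℘[L] z - c := fun x =>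
    (L.meromorphic_weierstrassP x).sub (MeromorphicAt.const _ _)
  have hmi : Meromorphic fun z => (℘[L] z - c)⁻¹ := fun x => (hm x).inv
  have han : ∀ x, x ∉ L.lattice → AnalyticAt ℂ (fun z => (℘[L] z - c)⁻¹) x := by
    intro x hx
    have h1 := L.analyticOnNhd_weierstrassP x hx
    have h2 : AnalyticAt ℂ (fun z => ℘[L] z - c) x := by fun_prop
    exact h2.inv (hne x hx)
  obtain ⟨k, hk⟩ := exists_const_of_periodic L (fun z => (℘[L] z - c)⁻¹) hmi
    (fun z l hl => by
      have := L.weierstrassP_add_coe z ⟨l, hl⟩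
      simp only at this
      simp only [this])
    (fun x => by
      by_cases hx : x ∈ L.lattice
      · have e : (fun z => (℘[L] z - c)⁻¹) = (fun z => ℘[L] z - c)⁻¹ := rfl
        rw [e, meromorphicOrderAt_inv, order_wP_sub_const L c hx]
        decide
      · exact (han x hx).meromorphicOrderAt_nonneg)
  have hk' : ∀ x, x ∉ L.lattice → ℘[L] x = c + k⁻¹ := by
    intro x hx
    have h5 : (℘[L] x - c)⁻¹ = k := hk x (han x hx).continuousAt
    rw [← h5, inv_inv]
    ring
  have h0 : meromorphicOrderAt ℘[L] 0 = -2 := L.order_weierstrassP 0 (zero_mem _)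
  have h1 : ℘[L] =ᶠ[𝓝[≠] 0] fun _ => c + k⁻¹ := by
    filter_upwards [eventually_notMem L 0] with z hz
    exact hk' z hz
  rw [meromorphicOrderAt_congr h1] at h0
  have h2 : (0 : WithTop ℤ) ≤ meromorphicOrderAt (fun _ : ℂ => c + k⁻¹) 0 :=
    (analyticAt_const (𝕜 := ℂ) (v := c + k⁻¹) (x := (0 : ℂ))).meromorphicOrderAt_nonneg
  rw [h0] at h2
  exact absurd h2 (by decide)

/-! ### Injectivity -/

/-- If `℘(a) = ℘(b)` and `℘'(a) = ℘'(b)` then `a ≡ b`. -/
theorem sub_mem_of_eq {a b : ℂ} (ha : a ∉ L.lattice) (hb : b ∉ L.lattice)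
    (h : ℘[L] a = ℘[L] b) (h' : ℘'[L] a = ℘'[L] b) : a - b ∈ L.lattice := by
  by_contra hab
  -- `g(z) = ℘(z + a) - ℘(z + b)` vanishes identically
  have hf : Meromorphic fun z => (℘[L] z - ℘[L] a) ^ 2 := fun x =>
    ((L.meromorphic_weierstrassP x).sub (MeromorphicAt.const _ _)).pow 2
  have hg : Meromorphic fun z => ℘[L] (z + a) - ℘[L] (z + b) := fun x =>
    (meromorphic_wP_add L a x).sub (meromorphic_wP_add L b x)
  have hf0 : meromorphicOrderAt (fun z => (℘[L] z - ℘[L] a) ^ 2) 0 ≠ ⊤ := by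
    have e : (fun z => (℘[L] z - ℘[L] a) ^ 2) = (fun z => ℘[L] z - ℘[L] a) ^ 2 := rfl
    have hma : MeromorphicAt (fun z => ℘[L] z - ℘[L] a) 0 :=
      (L.meromorphic_weierstrassP 0).sub (MeromorphicAt.const _ _)
    rw [e, meromorphicOrderAt_pow hma, order_wP_sub_const L _ (zero_mem _)]
    decide
  have hgen : ∀ x, ∀ᶠ u in 𝓝[≠] x, u ∉ L.lattice ∧ u + a ∉ L.lattice ∧ u + b ∉ L.lattice :=
    fun x => (eventually_notMem L x).and
      ((eventually_add_notMem L a x).and (eventually_add_notMem L b x))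
  have htop := order_eq_top_of_mul_eq_zero hf hg hf0 (fun x => by
    filter_upwards [hgen x] with u hu
    have h1 := wP_add L hu.1 ha hu.2.1
    have h2 := wP_add L hu.1 hb hu.2.2
    rw [← h, ← h'] at h2
    linear_combination h1 - h2) (-a)
  -- but `g` has a pole at `-a`
  have h2 : meromorphicOrderAt (fun z => ℘[L] (z + a)) (-a) = -2 :=
    order_wP_add L a (-a) (by simp)
  have hba : -a + b ∉ L.lattice := by
    intro hh
    apply hab
    have := L.lattice.neg_mem hh
    convert this using 1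
    ring
  have h1 : (0 : WithTop ℤ) ≤ meromorphicOrderAt (fun z => -℘[L] (z + b)) (-a) := by
    rw [← meromorphicOrderAt_fun_neg]
    exact (analyticAt_wP_add L hba).meromorphicOrderAt_nonneg
  have h3 : meromorphicOrderAt ((fun z => ℘[L] (z + a)) + fun z => -℘[L] (z + b)) (-a) = -2 := by
    rw [meromorphicOrderAt_add_eq_left_of_lt
      (show MeromorphicAt (fun z => -℘[L] (z + b)) (-a) from (meromorphic_wP_add L b (-a)).neg)]
    · exact h2
    · rw [h2]
      exact lt_of_lt_of_le (by decide) h1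
  have e : (fun z => ℘[L] (z + a) - ℘[L] (z + b)) =
      (fun z => ℘[L] (z + a)) + fun z => -℘[L] (z + b) := by
    funext z
    simp [sub_eq_add_neg]
  rw [e, h3] at htop
  exact absurd htop (by decide)

/-- (AN-INJ) `℘(a) = ℘(b)` implies `a ≡ ± b`. -/
theorem wP_inj {a b : ℂ} (ha : a ∉ L.lattice) (hb : b ∉ L.lattice) (h : ℘[L] a = ℘[L] b) :
    a - b ∈ L.lattice ∨ a + b ∈ L.lattice := by
  have h1 := L.derivWeierstrassP_sq a ha
  have h2 := L.derivWeierstrassP_sq b hb
  rw [h, ← h2] at h1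
  rcases sq_eq_sq_iff_eq_or_eq_neg.mp h1 with h3 | h3
  · exact Or.inl (sub_mem_of_eq L ha hb h h3)
  · right
    have hb' : -b ∉ L.lattice := fun hh => hb (by simpa using L.lattice.neg_mem hh)
    have := sub_mem_of_eq L ha hb' (by rw [L.weierstrassP_neg]; exact h)
      (by rw [L.derivWeierstrassP_neg]; exact h3)
    simpa using this

end Fermat.Agent.S15.H45
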